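import Mathlib
import Fermat.Prelude.Def_GaloisRep_Adic
import Fermat.Prelude.Def_GaloisRep_Residual
import Fermat.Prelude.Def_CuspForm_HeckeAlgebra
import Fermat.Prelude.Def_CuspForm_HeckeGaloisRepDatum

/-!
# P5 block [G9]: `S29` and `S42` from `S30` — typed contracts

* `S30Stmt` : the frozen statement `S30`, verbatim (so `Fermat.Agent.S30.result : S30Stmt`).
* `S29Stmt` : the frozen statement `S29`, verbatim.
* `CompletionStmt` (leaf G9-a): a nonzero prime of the ring of integers of a number field has a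
  complete discrete valuation ring with finite residue field receiving the ring of integers.
* `EigenStmt` (leaf G9-b): a normalised eigenform (in the q-coefficient sense of the Prelude)
  has an eigencharacter on the Hecke algebra.
-/

set_option autoImplicit false

open Polynomial
open CuspForm
open scoped NumberField

namespace Fermat.Agent.P5.G9

/-- The frozen statement `S30`, verbatim. -/
def S30Stmt : Prop :=
    ∀ (p : ℕ) [Fact p.Prime] (N : ℕ) [NeZero N] (S : Finset ℕ)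
      (_hpS : p ∈ S) (_hNS : ∀ q : ℕ, q.Prime → q ∣ N → q ∈ S)
      (𝒪' : Type) [CommRing 𝒪'] [IsDomain 𝒪'] [IsDiscreteValuationRing 𝒪']
      [IsAdicComplete (IsLocalRing.maximalIdeal 𝒪') 𝒪'] [Finite (IsLocalRing.ResidueField 𝒪')]
      [CharZero 𝒪'] (_hp𝒪' : (p : 𝒪') ∈ IsLocalRing.maximalIdeal 𝒪')
      (χ : CuspForm.heckeAlgebra N 2 (↑S : Set ℕ) →+* 𝒪'),
      ∃ (𝒪'' : Type) (_ : CommRing 𝒪'') (_ : IsDomain 𝒪'') (_ : IsDiscreteValuationRing 𝒪'')
        (_ : IsAdicComplete (IsLocalRing.maximalIdeal 𝒪'') 𝒪'')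
        (_ : Finite (IsLocalRing.ResidueField 𝒪'')) (_ : CharZero 𝒪'')
        (_ : Algebra 𝒪' 𝒪'') (_ : Module.Finite 𝒪' 𝒪'') (_ : IsLocalHom (algebraMap 𝒪' 𝒪'')),
      Function.Injective (algebraMap 𝒪' 𝒪'') ∧
      ∃ ρ : GaloisRepAdic 𝒪'',
        (∀ (ℓ : ℕ) (hℓ : ℓ.Prime) (hℓN : ¬ ℓ ∣ N) (hℓS : ℓ ∉ (↑S : Set ℕ)),
          ∀ A : ValuationSubring (AlgebraicClosure ℚ), A.LiesOverPrime ℓ →
            ∀ σ : AlgebraicClosure ℚ ≃ₐ[ℚ] AlgebraicClosure ℚ, A.IsFrobeniusAt σ ℓ →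
              LinearMap.charpoly (ρ.ρ σ) =
                X ^ 2 - C (algebraMap 𝒪' 𝒪'' (χ (CuspForm.heckeAlgebra.T hℓ hℓN hℓS))) * X
                  + C ((ℓ : 𝒪''))) ∧
        (∀ q : ℕ, q.Prime → ¬ q ∣ N → q ≠ p → ρ.IsUnramifiedAt q)

/-- The frozen statement `S29`, verbatim. -/
def S29Stmt : Prop :=
    ∀ {N : ℕ} {g : CuspForm (CongruenceSubgroup.Gamma0 N) 2} (_hg : g.IsNormalizedEigenform)
    {p : ℕ} (_hp : p.Prime) {k : Type} [Field k] [CharP k p]
    (φ : integralClosure ℤ ℂ →+* k),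
    ∃ ρ : ResidualGaloisRep k, ρ.IsAttachedTo g φ ∧
      ∀ ℓ : ℕ, ℓ.Prime → ¬ ℓ ∣ N * p → ρ.IsUnramifiedAt ℓ

/-- Leaf (G9-a): the completion of the ring of integers of a number field at a nonzero prime,
packaged without any topology: a complete DVR `O` of characteristic zero with finite residue
field and a ring homomorphism `𝓞 K →+* O` under which the maximal ideal pulls back to the prime
and which is onto the residue field. -/
def CompletionStmt : Prop :=
  ∀ (K : Type) [Field K] [NumberField K] (v : IsDedekindDomain.HeightOneSpectrum (𝓞 K)),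
    ∃ (O : Type) (_ : CommRing O) (_ : IsDomain O) (_ : IsDiscreteValuationRing O)
      (_ : IsAdicComplete (IsLocalRing.maximalIdeal O) O)
      (_ : Finite (IsLocalRing.ResidueField O)) (_ : CharZero O)
      (f : 𝓞 K →+* O),
      (∀ x : 𝓞 K, f x ∈ IsLocalRing.maximalIdeal O ↔ x ∈ v.asIdeal) ∧
        Function.Surjective fun x : 𝓞 K => IsLocalRing.residue O (f x)

/-- Leaf (G9-b): the eigencharacter of a normalised eigenform. -/
def EigenStmt : Prop :=
  ∀ (N : ℕ) [NeZero N] (g : CuspForm (CongruenceSubgroup.Gamma0 N) 2),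
    g.IsNormalizedEigenform → ∀ S : Set ℕ,
      ∃ χ : CuspForm.heckeAlgebra N 2 S →+* ℂ,
        ∀ (ℓ : ℕ) (hℓ : ℓ.Prime) (hℓN : ¬ ℓ ∣ N) (hℓS : ℓ ∉ S),
          χ (CuspForm.heckeAlgebra.T hℓ hℓN hℓS) = ModularFormClass.qCoeff g ℓ

end Fermat.Agent.P5.G9
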