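import Mathlib
import Fermat.Agent.P5.G9.Plan
import Fermat.Agent.S22

/-!
# P5 block [G9]: `S29` from `S30`

`s29_of_s30 : CompletionStmt → EigenStmt → S30Stmt → S29Stmt`.

The eigencharacter of the eigenform takes values in the ring of integers of a number field
`K ⊆ ℂ`; the given residue map `φ : ℤ̄ → k` cuts out a prime `v` of `𝓞 K`; the completion of
`𝓞 K` at `v` is the coefficient ring fed to `S30`.  The resulting adic representation is reduced
modulo the maximal ideal and base-changed to `k` along an embedding of the (finite) residue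
field into the algebraically closed field `ℤ̄ ⧸ ker φ ⊆ k`.
-/

set_option autoImplicit false

open Polynomial
open scoped NumberField TensorProduct

namespace Fermat.Agent.P5.G9

/-- The trivial two-dimensional residual representation. -/
noncomputable def trivialResidualRep (k : Type) [Field k] : ResidualGaloisRep k :=
  { V := Fin 2 → k
    finrank_eq := by simp
    ρ := 1
    factorsThroughFiniteLevel := ⟨⊥, inferInstance, fun σ _ => rfl⟩ }

theorem trivialResidualRep_ρ (k : Type) [Field k]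
    (σ : AlgebraicClosure ℚ ≃ₐ[ℚ] AlgebraicClosure ℚ) : (trivialResidualRep k).ρ σ = 1 := rfl

theorem charpoly_residual {A : Type} [CommRing A] [IsLocalRing A] (ρ : GaloisRepAdic A)
    (σ : AlgebraicClosure ℚ ≃ₐ[ℚ] AlgebraicClosure ℚ) :
    LinearMap.charpoly (ρ.residual.ρ σ) =
      (LinearMap.charpoly (ρ.ρ σ)).map (algebraMap A (IsLocalRing.ResidueField A)) :=
  LinearMap.charpoly_baseChange (ρ.ρ σ) (IsLocalRing.ResidueField A)

theorem residual_eq_one {A : Type} [CommRing A] [IsLocalRing A] (ρ : GaloisRepAdic A)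
    (σ : AlgebraicClosure ℚ ≃ₐ[ℚ] AlgebraicClosure ℚ) (h : ρ.ρ σ = 1) : ρ.residual.ρ σ = 1 := by
  show (ρ.ρ σ).baseChange (IsLocalRing.ResidueField A) = 1
  rw [h, LinearMap.baseChange_one]

theorem charpoly_resBaseChange {k k' : Type} [Field k] [Field k'] [Algebra k k']
    (ρ : ResidualGaloisRep k) (σ : AlgebraicClosure ℚ ≃ₐ[ℚ] AlgebraicClosure ℚ) :
    LinearMap.charpoly ((ρ.baseChange k').ρ σ) =
      (LinearMap.charpoly (ρ.ρ σ)).map (algebraMap k k') :=
  LinearMap.charpoly_baseChange (ρ.ρ σ) k'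

theorem resBaseChange_eq_one {k k' : Type} [Field k] [Field k'] [Algebra k k']
    (ρ : ResidualGaloisRep k) (σ : AlgebraicClosure ℚ ≃ₐ[ℚ] AlgebraicClosure ℚ)
    (h : ρ.ρ σ = 1) : (ρ.baseChange k').ρ σ = 1 := by
  show (ρ.ρ σ).baseChange k' = 1
  rw [h, LinearMap.baseChange_one]

/-- Reduction of an adic representation to a field receiving the residue field. -/
theorem exists_residual_of_adic {A : Type} [CommRing A] [IsLocalRing A] {k : Type} [Field k]
    (ρ : GaloisRepAdic A) (ψ : IsLocalRing.ResidueField A →+* k) :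
    ∃ ρ' : ResidualGaloisRep k,
      (∀ σ : AlgebraicClosure ℚ ≃ₐ[ℚ] AlgebraicClosure ℚ,
        LinearMap.charpoly (ρ'.ρ σ) =
          (LinearMap.charpoly (ρ.ρ σ)).map (ψ.comp (IsLocalRing.residue A))) ∧
      (∀ σ : AlgebraicClosure ℚ ≃ₐ[ℚ] AlgebraicClosure ℚ, ρ.ρ σ = 1 → ρ'.ρ σ = 1) := by
  letI : Algebra (IsLocalRing.ResidueField A) k := ψ.toAlgebra
  refine ⟨ρ.residual.baseChange k, fun σ => ?_, fun σ h => ?_⟩
  · rw [charpoly_resBaseChange, charpoly_residual, Polynomial.map_map]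
    rfl
  · exact resBaseChange_eq_one _ σ (residual_eq_one ρ σ h)

/-- Residue fields of `ℤ̄` are algebraically closed. -/
theorem isAlgClosed_quotient_integralClosure (I : Ideal (integralClosure ℤ ℂ)) [I.IsMaximal] :
    @IsAlgClosed (integralClosure ℤ ℂ ⧸ I) (Ideal.Quotient.field I) := by
  letI := Ideal.Quotient.field I
  refine IsAlgClosed.of_exists_root _ fun P hP hirr => ?_
  obtain ⟨Q, hQ, hdeg, hQm⟩ := Polynomial.lifts_and_natDegree_eq_and_monic
    ((Polynomial.mem_lifts _).mpr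
      (Polynomial.map_surjective (Ideal.Quotient.mk I) Ideal.Quotient.mk_surjective P)) hP
  have hdeg' : (Q.map (algebraMap (integralClosure ℤ ℂ) ℂ)).degree ≠ 0 := by
    intro h
    have h1 : (Q.map (algebraMap (integralClosure ℤ ℂ) ℂ)).natDegree = Q.natDegree :=
      hQm.natDegree_map _
    have h2 := Polynomial.natDegree_eq_zero_iff_degree_le_zero.mpr h.le
    rw [h1, hdeg] at h2
    exact hirr.natDegree_pos.ne' h2
  obtain ⟨α, hα⟩ := IsAlgClosed.exists_root (Q.map (algebraMap (integralClosure ℤ ℂ) ℂ)) hdeg'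
  rw [Polynomial.IsRoot.def, Polynomial.eval_map] at hα
  have hαint : IsIntegral (integralClosure ℤ ℂ) α := ⟨Q, hQm, hα⟩
  have hαZ : IsIntegral ℤ α := isIntegral_trans α hαint
  refine ⟨Ideal.Quotient.mk I ⟨α, hαZ⟩, ?_⟩
  have h0 : Q.eval (⟨α, hαZ⟩ : integralClosure ℤ ℂ) = 0 := by
    apply Subtype.ext
    have := Polynomial.eval₂_at_apply (p := Q) (algebraMap (integralClosure ℤ ℂ) ℂ)
      (⟨α, hαZ⟩ : integralClosure ℤ ℂ)
    exact this.symm.trans hα
  rw [← hQ, Polynomial.eval_map, Polynomial.eval₂_at_apply, h0, map_zero]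

theorem ker_isMaximal {k : Type} [Field k] {p : ℕ} (hp : p.Prime) [CharP k p]
    (φ : integralClosure ℤ ℂ →+* k) : (RingHom.ker φ).IsMaximal := by
  haveI : (RingHom.ker φ).IsPrime := RingHom.ker_isPrime φ
  apply Ideal.isMaximal_of_isIntegral_of_isMaximal_comap (R := ℤ)
  have h : Ideal.comap (algebraMap ℤ (integralClosure ℤ ℂ)) (RingHom.ker φ) =
      Ideal.span {(p : ℤ)} := by
    ext n
    rw [Ideal.mem_comap, RingHom.mem_ker, Ideal.mem_span_singleton, eq_intCast, map_intCast,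
      CharP.intCast_eq_zero_iff k p]
  rw [h]
  exact PrincipalIdealRing.isMaximal_of_irreducible (Nat.prime_iff_prime_int.mp hp).irreducible

/-- The values of a ring homomorphism from a finite `ℤ`-module lie in a number field. -/
theorem exists_numberField_hull {T : Type} [CommRing T] [Module.Finite ℤ T] (χ : T →+* ℂ) :
    ∃ K : IntermediateField ℚ ℂ, FiniteDimensional ℚ K ∧ ∀ t, χ t ∈ K := by
  obtain ⟨s, hs⟩ := (Module.Finite.fg_top : (⊤ : Submodule ℤ T).FG)
  have hint : ∀ t : T, IsIntegral ℤ (χ t) := fun t =>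
    (Algebra.IsIntegral.isIntegral (R := ℤ) t).map χ.toIntAlgHom
  refine ⟨IntermediateField.adjoin ℚ (χ '' (s : Set T)), ?_, fun t => ?_⟩
  · haveI : Finite (χ '' (s : Set T)) := (s.finite_toSet.image χ).to_subtype
    refine IntermediateField.finiteDimensional_adjoin fun x hx => ?_
    obtain ⟨t, -, rfl⟩ := hx
    exact (hint t).tower_top
  · have ht : t ∈ Submodule.span ℤ (s : Set T) := hs ▸ Submodule.mem_top
    induction ht using Submodule.span_induction with
    | mem x hx => exact IntermediateField.subset_adjoin ℚ _ ⟨x, hx, rfl⟩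
    | zero => rw [map_zero]; exact zero_mem _
    | add x y _ _ hx hy => rw [map_add]; exact add_mem hx hy
    | smul n x _ hx =>
      rw [zsmul_eq_mul, map_mul, map_intCast]
      exact mul_mem (intCast_mem _ n) hx

/-- A ring homomorphism with integral values factors through the ring of integers. -/
noncomputable def toRingOfIntegers {M K : Type} [Semiring M] [Field K] (f : M →+* K)
    (h : ∀ x, IsIntegral ℤ (f x)) : M →+* 𝓞 K where
  toFun x := ⟨f x, h x⟩
  map_one' := NumberField.RingOfIntegers.ext (map_one f)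
  map_mul' x y := NumberField.RingOfIntegers.ext (map_mul f x y)
  map_zero' := NumberField.RingOfIntegers.ext (map_zero f)
  map_add' x y := NumberField.RingOfIntegers.ext (map_add f x y)

theorem s29_of_s30_aux (hC : CompletionStmt) (hE : EigenStmt) (h30 : S30Stmt)
    {N : ℕ} [NeZero N] {g : CuspForm (CongruenceSubgroup.Gamma0 N) 2}
    (hg : g.IsNormalizedEigenform)
    {p : ℕ} (hp : p.Prime) {k : Type} [Field k] [CharP k p]
    (φ : integralClosure ℤ ℂ →+* k) :
    ∃ ρ : ResidualGaloisRep k, ρ.IsAttachedTo g φ ∧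
      ∀ ℓ : ℕ, ℓ.Prime → ¬ ℓ ∣ N * p → ρ.IsUnramifiedAt ℓ := by
  classical
  haveI : Fact p.Prime := ⟨hp⟩
  set S : Finset ℕ := insert p N.primeFactors with hS
  have hpS : p ∈ S := Finset.mem_insert_self _ _
  have hNS : ∀ q : ℕ, q.Prime → q ∣ N → q ∈ S := fun q hq hqN =>
    Finset.mem_insert_of_mem (Nat.mem_primeFactors.mpr ⟨hq, hqN, NeZero.ne N⟩)
  obtain ⟨χc, hχc⟩ := hE N g hg (↑S : Set ℕ)
  haveI : Module.Finite ℤ (CuspForm.heckeAlgebra N 2 (↑S : Set ℕ)) :=
    Fermat.Agent.S22.result N 2 _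
  obtain ⟨K, hKfin, hK⟩ := exists_numberField_hull χc
  haveI : NumberField K := { to_charZero := inferInstance, to_finiteDimensional := hKfin }
  have hint : ∀ t, IsIntegral ℤ (χc t) := fun t =>
    (Algebra.IsIntegral.isIntegral (R := ℤ) t).map χc.toIntAlgHom
  let χK : CuspForm.heckeAlgebra N 2 (↑S : Set ℕ) →+* K := χc.codRestrict K hK
  have hintK : ∀ t, IsIntegral ℤ (χK t) := fun t =>
    (isIntegral_algebraMap_iff (algebraMap K ℂ).injective).mp (hint t)
  let χ₀ : CuspForm.heckeAlgebra N 2 (↑S : Set ℕ) →+* 𝓞 K := toRingOfIntegers χK hintK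
  let ι : 𝓞 K →+* integralClosure ℤ ℂ :=
    ((algebraMap K ℂ).comp (algebraMap (𝓞 K) K)).codRestrict (integralClosure ℤ ℂ)
      (fun x => (NumberField.RingOfIntegers.isIntegral_coe x).algebraMap)
  have hιχ : ∀ t, ((ι (χ₀ t) : integralClosure ℤ ℂ) : ℂ) = χc t := fun t => rfl
  let v : Ideal (𝓞 K) := RingHom.ker (φ.comp ι)
  have hvprime : v.IsPrime := RingHom.ker_isPrime _
  have hpv : (p : 𝓞 K) ∈ v := by
    rw [RingHom.mem_ker, map_natCast]; exact CharP.cast_eq_zero k p
  have hv0 : v ≠ ⊥ := fun h => by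
    rw [h, Ideal.mem_bot] at hpv
    exact hp.ne_zero (Nat.cast_eq_zero.mp hpv)
  obtain ⟨O, _, _, _, _, _, _, f, hf, hfsurj⟩ := hC K ⟨v, hvprime, hv0⟩
  have hpO : (p : O) ∈ IsLocalRing.maximalIdeal O := by
    have := (hf (p : 𝓞 K)).mpr hpv
    rwa [map_natCast] at this
  obtain ⟨O'', _, _, _, _, _, _, _, _, _, hinj, ρ, hρchar, hρunr⟩ :=
    h30 p N S hpS hNS O hpO (f.comp χ₀)
  haveI hmax : (RingHom.ker φ).IsMaximal := ker_isMaximal hp φ
  letI : Field (integralClosure ℤ ℂ ⧸ RingHom.ker φ) := Ideal.Quotient.field _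
  haveI : IsAlgClosed (integralClosure ℤ ℂ ⧸ RingHom.ker φ) :=
    isAlgClosed_quotient_integralClosure _
  let q₁ : 𝓞 K →+* IsLocalRing.ResidueField O := (IsLocalRing.residue O).comp f
  have hq₁ : Function.Surjective q₁ := hfsurj
  let q₂ : 𝓞 K →+* integralClosure ℤ ℂ ⧸ RingHom.ker φ :=
    (Ideal.Quotient.mk (RingHom.ker φ)).comp ι
  have hker : RingHom.ker q₁ ≤ RingHom.ker q₂ := by
    intro x hx
    rw [RingHom.mem_ker] at hx ⊢
    have h1 : f x ∈ IsLocalRing.maximalIdeal O := (IsLocalRing.residue_eq_zero_iff _).mp hx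
    have h2 : x ∈ v := (hf x).mp h1
    exact Ideal.Quotient.eq_zero_iff_mem.mpr h2
  let ψ' : IsLocalRing.ResidueField O →+* integralClosure ℤ ℂ ⧸ RingHom.ker φ :=
    RingHom.liftOfSurjective q₁ hq₁ ⟨q₂, hker⟩
  have hψ' : ∀ x, ψ' (IsLocalRing.residue O (f x)) = Ideal.Quotient.mk _ (ι x) := fun x =>
    RingHom.liftOfSurjective_comp_apply q₁ hq₁ ⟨q₂, hker⟩ x
  letI : Algebra (IsLocalRing.ResidueField O) (integralClosure ℤ ℂ ⧸ RingHom.ker φ) :=
    ψ'.toAlgebra
  let ψM : IsLocalRing.ResidueField O'' →ₐ[IsLocalRing.ResidueField O]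
      (integralClosure ℤ ℂ ⧸ RingHom.ker φ) := IsAlgClosed.lift
  obtain ⟨ψ, hψ⟩ : ∃ ψ : IsLocalRing.ResidueField O'' →+* k,
      ∀ x : 𝓞 K, ψ (IsLocalRing.residue O'' (algebraMap O O'' (f x))) = φ (ι x) := by
    refine ⟨(RingHom.kerLift φ).comp ψM.toRingHom, fun x => ?_⟩
    have h1 : IsLocalRing.residue O'' (algebraMap O O'' (f x)) =
        algebraMap (IsLocalRing.ResidueField O) (IsLocalRing.ResidueField O'')
          (IsLocalRing.residue O (f x)) := rfl
    show RingHom.kerLift φ (ψM (IsLocalRing.residue O'' (algebraMap O O'' (f x)))) = _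
    rw [h1, AlgHom.commutes]
    show RingHom.kerLift φ (ψ' (IsLocalRing.residue O (f x))) = _
    rw [hψ' x]
    exact RingHom.kerLift_mk φ (ι x)
  obtain ⟨ρ', hρ'char, hρ'one⟩ := exists_residual_of_adic ρ ψ
  refine ⟨ρ', ?_, ?_⟩
  · intro ℓ hℓ hℓN hℓk A hA σ hσ
    have hℓp : ℓ ≠ p := fun h => hℓk (by rw [h]; exact CharP.cast_eq_zero k p)
    have hℓS : ℓ ∉ (↑S : Set ℕ) := by
      rw [Finset.mem_coe, hS, Finset.mem_insert, not_or]
      exact ⟨hℓp, fun h => hℓN (Nat.dvd_of_mem_primeFactors h)⟩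
    refine ⟨ι (χ₀ (CuspForm.heckeAlgebra.T hℓ hℓN hℓS)), ?_, ?_⟩
    · exact (hιχ _).trans (hχc ℓ hℓ hℓN hℓS)
    · have hval : (ψ.comp (IsLocalRing.residue O''))
          (algebraMap O O'' ((f.comp χ₀) (CuspForm.heckeAlgebra.T hℓ hℓN hℓS))) =
          φ (ι (χ₀ (CuspForm.heckeAlgebra.T hℓ hℓN hℓS))) :=
        hψ (χ₀ (CuspForm.heckeAlgebra.T hℓ hℓN hℓS))
      rw [hρ'char, hρchar ℓ hℓ hℓN hℓS A hA σ hσ, Polynomial.map_add, Polynomial.map_sub,
        Polynomial.map_mul, Polynomial.map_pow, Polynomial.map_X, Polynomial.map_C,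
        Polynomial.map_C, hval, map_natCast]
  · intro ℓ hℓ hℓNp A hA σ hσ
    have hℓN : ¬ ℓ ∣ N := fun h => hℓNp (Dvd.dvd.mul_right h p)
    have hℓp : ℓ ≠ p := fun h => hℓNp (h ▸ Dvd.intro_left N rfl)
    exact hρ'one σ (hρunr ℓ hℓ hℓN hℓp A hA σ hσ)

/-- **`S29` from `S30`** (modulo the two leaves of the block). -/
theorem s29_of_s30 (hC : CompletionStmt) (hE : EigenStmt) (h30 : S30Stmt) : S29Stmt := by
  intro N g hg p hp k _ _ φ
  rcases Nat.eq_zero_or_pos N with rfl | hN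
  · refine ⟨trivialResidualRep k, ?_, ?_⟩
    · intro ℓ _ hℓN
      exact absurd (dvd_zero ℓ) hℓN
    · intro ℓ _ hℓN
      exact absurd (by rw [zero_mul]; exact dvd_zero ℓ) hℓN
  · haveI : NeZero N := ⟨hN.ne'⟩
    exact s29_of_s30_aux hC hE h30 hg hp φ

end Fermat.Agent.P5.G9
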