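import Mathlib
import Fermat.Agent.P5.Plan
import Fermat.Agent.P5.G9.Top

/-!
# P5 block [G9]: the level-zero case of `S29`

`levelZeroStmt : Fermat.Agent.P5.Plan.LevelZeroStmt`: at level `N = 0` both clauses of the frozen
statement are vacuous (`¬ ℓ ∣ 0` never holds), so the trivial two-dimensional representation works.
-/

set_option autoImplicit false

namespace Fermat.Agent.P5.G9

/-- The level-zero case of `S29` (contract `Plan.LevelZeroStmt` of the P5 spine). -/
theorem levelZeroStmt : Fermat.Agent.P5.Plan.LevelZeroStmt := by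
  intro g _ p _ k _ _ φ
  refine ⟨trivialResidualRep k, ?_, ?_⟩
  · intro ℓ _ hℓN
    exact absurd (dvd_zero ℓ) hℓN
  · intro ℓ _ hℓN
    exact absurd (by rw [zero_mul]; exact dvd_zero ℓ) hℓN

end Fermat.Agent.P5.G9
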