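import Mathlib
import Fermat.Prelude.Def_FLTPrelim_ModularRep
import Fermat.Agent.Lib.EigenNormalize
import Fermat.Agent.P5.G9.Plan

/-!
# P5 block [G9], leaf (G9-b): the eigencharacter of a normalised eigenform

A normalised eigenform `g` in the `q`-coefficient sense of the Prelude
(`CuspForm.IsNormalizedEigenform`) is a simultaneous eigenvector of all `T_ℓ` (`ℓ ∤ N`) and
`U_q` (`q ∣ N`), with eigenvalue its `ℓ`-th (resp. `q`-th) `q`-coefficient.  Hence every element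
of the Hecke algebra acts on `g` by a scalar, and "the scalar" is a ring homomorphism
`heckeAlgebra N 2 S →+* ℂ`.

* `EigenHom.heckeTLin_eq`, `EigenHom.heckeULin_eq` : the eigen-equations.
* `EigenHom.exists_smul_eq` : every element of the Hecke algebra acts on `g` by a scalar.
* `EigenHom.eigenChar` : the eigencharacter; `EigenHom.eigenChar_smul`, `EigenHom.eigenChar_T`,
  `EigenHom.eigenChar_U`.
* `eigenStmt : EigenStmt` : the contract (G9-b) of `P5/G9/Plan.lean`.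
-/

set_option autoImplicit false

open ModularFormClass CongruenceSubgroup

namespace Fermat.Agent.P5.G9

namespace EigenHom

open Fermat.Agent.Lib.EigenNormalize

section Seq

variable {R : Type*} [CommRing R]

/-- A multiplicative sequence with `a 0 = 0` satisfying the two-step recursion at the prime `ℓ`
satisfies the Hecke relation at `ℓ`. -/
theorem hecke_rel_of_recursive {a : ℕ → R} (e : R) (h0 : a 0 = 0)
    (hmul : ∀ m n : ℕ, m.Coprime n → a (m * n) = a m * a n)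
    {ℓ : ℕ} (hℓ : ℓ.Prime)
    (hrec : ∀ r : ℕ, a (ℓ ^ (r + 2)) = a ℓ * a (ℓ ^ (r + 1)) - e * a (ℓ ^ r)) (n : ℕ) :
    a (ℓ * n) + e * (if ℓ ∣ n then a (n / ℓ) else 0) = a ℓ * a n := by
  rcases Nat.eq_zero_or_pos n with rfl | hn
  · simp [h0]
  · obtain ⟨r, m, hm, rfl⟩ := Nat.exists_eq_pow_mul_and_not_dvd hn.ne' ℓ hℓ.ne_one
    have hcop : ∀ k : ℕ, (ℓ ^ k).Coprime m := fun k =>
      Nat.Coprime.pow_left k ((Nat.Prime.coprime_iff_not_dvd hℓ).mpr hm)
    rcases r with _ | r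
    · have hnd : ¬ ℓ ∣ ℓ ^ 0 * m := by simpa using hm
      rw [if_neg hnd, mul_zero, add_zero]
      have h1 := hmul ℓ m (by simpa using hcop 1)
      simpa using h1
    · have hd : ℓ ∣ ℓ ^ (r + 1) * m := Dvd.dvd.mul_right (dvd_pow_self ℓ (by omega)) m
      have hdiv : ℓ ^ (r + 1) * m / ℓ = ℓ ^ r * m := by
        rw [pow_succ, mul_comm (ℓ ^ r) ℓ, mul_assoc, Nat.mul_div_cancel_left _ hℓ.pos]
      have hmul' : ℓ * (ℓ ^ (r + 1) * m) = ℓ ^ (r + 2) * m := by ring
      rw [if_pos hd, hdiv, hmul', hmul _ _ (hcop (r + 2)), hmul _ _ (hcop r),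
        hmul _ _ (hcop (r + 1)), hrec r]
      ring

end Seq

section Forms

variable {N : ℕ}

theorem qCoeff_sub (f g : CuspForm (Gamma0 N) 2) (n : ℕ) :
    qCoeff ⇑(f - g) n = qCoeff ⇑f n - qCoeff ⇑g n := by
  simp only [qCoeff, FunLike.coe_sub]
  rw [ModularForm.qExpansion_sub one_pos (one_mem_strictPeriods_Gamma0 N) f g, map_sub]

/-- Two cusp forms with the same `q`-coefficients are equal. -/
theorem eq_of_qCoeff_eq (f g : CuspForm (Gamma0 N) 2)
    (h : ∀ n : ℕ, qCoeff ⇑f n = qCoeff ⇑g n) : f = g := by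
  have := eq_zero_of_qCoeff_eq_zero (f - g) fun n => by rw [qCoeff_sub, h n, sub_self]
  exact sub_eq_zero.mp this

/-- A normalised eigenform is an eigenvector of `T_ℓ` (`ℓ ∤ N`) with eigenvalue `a_ℓ`. -/
theorem heckeTLin_eq {g : CuspForm (Gamma0 N) 2} (hg : g.IsNormalizedEigenform)
    {ℓ : ℕ} (hℓ : ℓ.Prime) (hℓN : ¬ ℓ ∣ N) :
    CuspForm.heckeTLin 2 hℓ hℓN g = qCoeff ⇑g ℓ • g := by
  apply eq_of_qCoeff_eq
  intro n
  rw [qCoeff_heckeTLin g hℓ hℓN, qCoeff_smul]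
  exact hecke_rel_of_recursive (a := fun n => qCoeff ⇑g n) (ℓ : ℂ) (qCoeff_zero g)
    hg.qCoeff_mul_of_coprime hℓ (fun r => hg.qCoeff_prime_pow_of_not_dvd ℓ r hℓ hℓN) n

/-- A normalised eigenform is an eigenvector of `U_q` (`q ∣ N`) with eigenvalue `a_q`. -/
theorem heckeULin_eq [NeZero N] {g : CuspForm (Gamma0 N) 2} (hg : g.IsNormalizedEigenform)
    {q : ℕ} (hq : q.Prime) (hqN : q ∣ N) :
    CuspForm.heckeULin 2 hqN g = qCoeff ⇑g q • g := by
  apply eq_of_qCoeff_eq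
  intro n
  rw [qCoeff_heckeULin g hq hqN, qCoeff_smul]
  have h := hecke_rel_of_recursive (a := fun n => qCoeff ⇑g n) (0 : ℂ) (qCoeff_zero g)
    hg.qCoeff_mul_of_coprime hq
    (fun r => by rw [zero_mul, sub_zero]; exact hg.qCoeff_prime_pow_of_dvd q r hq hqN) n
  simpa using h

/-- The endomorphisms acting on `g` by a scalar form a `ℤ`-subalgebra. -/
def scalarOn (g : CuspForm (Gamma0 N) 2) :
    Subalgebra ℤ (Module.End ℂ (CuspForm (Gamma0 N) 2)) where
  carrier := {T | ∃ c : ℂ, T g = c • g}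
  mul_mem' := by
    rintro T T' ⟨c, hc⟩ ⟨c', hc'⟩
    refine ⟨c' * c, ?_⟩
    rw [Module.End.mul_apply, hc', map_smul, hc, smul_smul]
  one_mem' := ⟨1, by simp⟩
  add_mem' := by
    rintro T T' ⟨c, hc⟩ ⟨c', hc'⟩
    exact ⟨c + c', by rw [LinearMap.add_apply, hc, hc', add_smul]⟩
  zero_mem' := ⟨0, by simp⟩
  algebraMap_mem' := by
    intro r
    refine ⟨(r : ℂ), ?_⟩
    simp only [Algebra.algebraMap_eq_smul_one, LinearMap.smul_apply, Module.End.one_apply]
    exact (Int.cast_smul_eq_zsmul ℂ r g).symm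

theorem mem_scalarOn {g : CuspForm (Gamma0 N) 2}
    {T : Module.End ℂ (CuspForm (Gamma0 N) 2)} : T ∈ scalarOn g ↔ ∃ c : ℂ, T g = c • g :=
  Iff.rfl

theorem heckeAlgebra_le_scalarOn [NeZero N] {g : CuspForm (Gamma0 N) 2} (hg : g.IsNormalizedEigenform)
    (S : Set ℕ) : CuspForm.heckeAlgebra N 2 S ≤ scalarOn g := by
  refine Algebra.adjoin_le ?_
  rintro T (⟨ℓ, hℓ, hℓN, -, rfl⟩ | ⟨q, hqN, hq, -, rfl⟩)
  · exact ⟨_, heckeTLin_eq hg hℓ hℓN⟩
  · exact ⟨_, heckeULin_eq hg hq hqN⟩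

/-- Every element of the Hecke algebra acts on a normalised eigenform by a scalar. -/
theorem exists_smul_eq [NeZero N] {g : CuspForm (Gamma0 N) 2} (hg : g.IsNormalizedEigenform)
    {S : Set ℕ} (T : CuspForm.heckeAlgebra N 2 S) :
    ∃ c : ℂ, (T : Module.End ℂ (CuspForm (Gamma0 N) 2)) g = c • g :=
  heckeAlgebra_le_scalarOn hg S T.2

/-- If `T g = c • g` for a normalised eigenform `g`, then `c` is the first `q`-coefficient of
`T g`. -/
theorem qCoeff_one_of_smul_eq {g : CuspForm (Gamma0 N) 2} (hg : g.IsNormalizedEigenform)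
    {f : CuspForm (Gamma0 N) 2} {c : ℂ} (h : f = c • g) : qCoeff ⇑f 1 = c := by
  rw [h, qCoeff_smul, hg.qCoeff_one, mul_one]

/-- The eigencharacter of a normalised eigenform: `T ↦` the first `q`-coefficient of `T g`. -/
noncomputable def eigenChar [NeZero N] {g : CuspForm (Gamma0 N) 2} (hg : g.IsNormalizedEigenform)
    (S : Set ℕ) : CuspForm.heckeAlgebra N 2 S →+* ℂ where
  toFun T := qCoeff ⇑((T : Module.End ℂ (CuspForm (Gamma0 N) 2)) g) 1
  map_one' := by
    show qCoeff ⇑((1 : Module.End ℂ (CuspForm (Gamma0 N) 2)) g) 1 = 1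
    rw [Module.End.one_apply]
    exact hg.qCoeff_one
  map_mul' := by
    intro T T'
    obtain ⟨c, hc⟩ := exists_smul_eq hg T
    obtain ⟨c', hc'⟩ := exists_smul_eq hg T'
    show qCoeff ⇑(((T : Module.End ℂ (CuspForm (Gamma0 N) 2)) *
      (T' : Module.End ℂ (CuspForm (Gamma0 N) 2))) g) 1 = _
    have h : ((T : Module.End ℂ (CuspForm (Gamma0 N) 2)) *
        (T' : Module.End ℂ (CuspForm (Gamma0 N) 2))) g = (c * c') • g := by
      rw [Module.End.mul_apply, hc', map_smul, hc, smul_smul, mul_comm]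
    rw [qCoeff_one_of_smul_eq hg h, qCoeff_one_of_smul_eq hg hc, qCoeff_one_of_smul_eq hg hc']
  map_zero' := by
    show qCoeff ⇑((0 : Module.End ℂ (CuspForm (Gamma0 N) 2)) g) 1 = 0
    have h : (0 : Module.End ℂ (CuspForm (Gamma0 N) 2)) g = (0 : ℂ) • g := by simp
    exact qCoeff_one_of_smul_eq hg h
  map_add' := by
    intro T T'
    obtain ⟨c, hc⟩ := exists_smul_eq hg T
    obtain ⟨c', hc'⟩ := exists_smul_eq hg T'
    show qCoeff ⇑(((T : Module.End ℂ (CuspForm (Gamma0 N) 2)) +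
      (T' : Module.End ℂ (CuspForm (Gamma0 N) 2))) g) 1 = _
    have h : ((T : Module.End ℂ (CuspForm (Gamma0 N) 2)) +
        (T' : Module.End ℂ (CuspForm (Gamma0 N) 2))) g = (c + c') • g := by
      rw [LinearMap.add_apply, hc, hc', add_smul]
    rw [qCoeff_one_of_smul_eq hg h, qCoeff_one_of_smul_eq hg hc, qCoeff_one_of_smul_eq hg hc']

theorem eigenChar_apply [NeZero N] {g : CuspForm (Gamma0 N) 2} (hg : g.IsNormalizedEigenform)
    {S : Set ℕ} (T : CuspForm.heckeAlgebra N 2 S) :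
    eigenChar hg S T = qCoeff ⇑((T : Module.End ℂ (CuspForm (Gamma0 N) 2)) g) 1 := rfl

/-- The Hecke algebra acts on a normalised eigenform through its eigencharacter. -/
theorem eigenChar_smul [NeZero N] {g : CuspForm (Gamma0 N) 2} (hg : g.IsNormalizedEigenform)
    {S : Set ℕ} (T : CuspForm.heckeAlgebra N 2 S) :
    (T : Module.End ℂ (CuspForm (Gamma0 N) 2)) g = eigenChar hg S T • g := by
  obtain ⟨c, hc⟩ := exists_smul_eq hg T
  rw [eigenChar_apply, qCoeff_one_of_smul_eq hg hc, hc]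

/-- The eigencharacter sends `T_ℓ` to the `ℓ`-th `q`-coefficient. -/
theorem eigenChar_T [NeZero N] {g : CuspForm (Gamma0 N) 2} (hg : g.IsNormalizedEigenform)
    {S : Set ℕ} {ℓ : ℕ} (hℓ : ℓ.Prime) (hℓN : ¬ ℓ ∣ N) (hℓS : ℓ ∉ S) :
    eigenChar hg S (CuspForm.heckeAlgebra.T hℓ hℓN hℓS) = qCoeff ⇑g ℓ := by
  rw [eigenChar_apply, CuspForm.heckeAlgebra.coe_T]
  exact qCoeff_one_of_smul_eq hg (heckeTLin_eq hg hℓ hℓN)

/-- The eigencharacter sends `U_q` to the `q`-th `q`-coefficient. -/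
theorem eigenChar_U [NeZero N] {g : CuspForm (Gamma0 N) 2} (hg : g.IsNormalizedEigenform)
    {S : Set ℕ} {q : ℕ} (hq : q.Prime) (hqN : q ∣ N) (hqS : q ∉ S) :
    eigenChar hg S (CuspForm.heckeAlgebra.U hq hqN hqS) = qCoeff ⇑g q := by
  rw [eigenChar_apply, CuspForm.heckeAlgebra.coe_U]
  exact qCoeff_one_of_smul_eq hg (heckeULin_eq hg hq hqN)

end Forms

end EigenHom

/-- Leaf (G9-b): a normalised eigenform has an eigencharacter on the Hecke algebra. -/
theorem eigenStmt : EigenStmt := by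
  intro N _ g hg S
  exact ⟨EigenHom.eigenChar hg S, fun ℓ hℓ hℓN hℓS => EigenHom.eigenChar_T hg hℓ hℓN hℓS⟩

end Fermat.Agent.P5.G9
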