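import Mathlib
import Fermat.Agent.P5.G9.Plan
import Fermat.Agent.S13.Assembly
import Fermat.Prelude.Def_FreyPackage_EigenformResidualAttachment

/-!
# P5 block [G9]: `S42` from `S29`

`s42_of_s29 : S29Stmt → ∀ P : FreyPackage, ∀ M, 0 < M → P.EigenformResidualAttachmentAt M`,
and the finer `s42_at_of_s29_at`, which needs `S29` only at the level `M` and at the Frey prime.

Apply `S29` to `k := ℤ̄ ⧸ 𝔪` and the quotient map; the trace and determinant are read off the
characteristic polynomial; the number field `F` is the normal closure of the compositum of the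
level field of the residual representation and of the field of the `p`-torsion of the Frey curve
(`Fermat.Agent.S13.exists_open`).  Independent of the way `S29` is proved.
-/

set_option autoImplicit false

open Polynomial
open WeierstrassCurve WeierstrassCurve.Affine.Point

namespace Fermat.Agent.P5.G9

/-- trace and determinant from a quadratic characteristic polynomial -/
theorem trace_det_of_charpoly {k V : Type} [Field k] [AddCommGroup V] [Module k V]
    [Module.Finite k V] (h2 : Module.finrank k V = 2) (f : Module.End k V) (a b : k)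
    (h : LinearMap.charpoly f = X ^ 2 - C a * X + C b) :
    LinearMap.trace k V f = a ∧ LinearMap.det f = b := by
  constructor
  · let bas := Module.finBasis k V
    haveI : Nonempty (Fin (Module.finrank k V)) := by rw [h2]; exact ⟨0⟩
    rw [LinearMap.trace_eq_matrix_trace k bas, Matrix.trace_eq_neg_charpoly_coeff,
      LinearMap.charpoly_toMatrix, h, Fintype.card_fin, h2]
    simp [Polynomial.coeff_C]
  · rw [LinearMap.det_eq_sign_charpoly_coeff, h2, h]
    simp [Polynomial.coeff_X, Polynomial.coeff_C]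

/-- A finite level field can be enlarged to a finite Galois number field, packaged in the
shape used by `FreyPackage.EigenformResidualAttachmentAt`. -/
theorem exists_galois_level (L : IntermediateField ℚ (AlgebraicClosure ℚ))
    [FiniteDimensional ℚ L] :
    ∃ (F : Type) (_ : Field F) (_ : NumberField F) (_ : IsGalois ℚ F)
      (_ : Algebra F (AlgebraicClosure ℚ)) (_ : IsScalarTower ℚ F (AlgebraicClosure ℚ)),
      ∀ σ ∈ (AlgEquiv.restrictNormalHom (F := ℚ) (K₁ := AlgebraicClosure ℚ) F).ker,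
        ∀ x ∈ L, σ x = x := by
  let F : IntermediateField ℚ (AlgebraicClosure ℚ) :=
    IntermediateField.normalClosure ℚ L (AlgebraicClosure ℚ)
  haveI : FiniteDimensional ℚ F := normalClosure.is_finiteDimensional ℚ L (AlgebraicClosure ℚ)
  haveI : Normal ℚ F := normalClosure.normal ℚ L (AlgebraicClosure ℚ)
  have hle : L ≤ F := IntermediateField.le_normalClosure L
  haveI : NumberField F := { to_charZero := inferInstance, to_finiteDimensional := inferInstance }
  haveI : IsGalois ℚ F := { to_isSeparable := inferInstance, to_normal := inferInstance }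
  refine ⟨F, inferInstance, inferInstance, inferInstance, inferInstance, inferInstance, ?_⟩
  intro σ hσ x hx
  have h1 : AlgEquiv.restrictNormalHom (F := ℚ) (K₁ := AlgebraicClosure ℚ) F σ = 1 := hσ
  have h2 := AlgEquiv.restrictNormal_commutes σ F ⟨x, hle hx⟩
  have h3 : σ.restrictNormal F = 1 := h1
  rw [h3] at h2
  exact h2.symm

/-- **`S42` at one level from `S29` at that level and at the Frey prime** (the shape of the
conclusion of `Plan.ResidualBlock` at `N := M`, `p := P.p`). -/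
theorem s42_at_of_s29_at (P : FreyPackage) (M : ℕ)
    (h29 : ∀ {g : CuspForm (CongruenceSubgroup.Gamma0 M) 2} (_hg : g.IsNormalizedEigenform)
      {k : Type} [Field k] [CharP k P.p] (φ : integralClosure ℤ ℂ →+* k),
      ∃ ρ : ResidualGaloisRep k, ρ.IsAttachedTo g φ ∧
        ∀ ℓ : ℕ, ℓ.Prime → ¬ ℓ ∣ M * P.p → ρ.IsUnramifiedAt ℓ) :
    P.EigenformResidualAttachmentAt M := by
  intro g hg 𝔪 h𝔪 hp𝔪
  haveI := h𝔪
  letI : Field (integralClosure ℤ ℂ ⧸ 𝔪) := Ideal.Quotient.field 𝔪
  have hpp : P.p.Prime := P.pp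
  have hp0 : ((P.p : ℕ) : integralClosure ℤ ℂ ⧸ 𝔪) = 0 := by
    rw [← map_natCast (Ideal.Quotient.mk 𝔪)]
    exact Ideal.Quotient.eq_zero_iff_mem.mpr hp𝔪
  haveI : CharP (integralClosure ℤ ℂ ⧸ 𝔪) P.p := (CharP.charP_iff_prime_eq_zero hpp).mpr hp0
  letI : Algebra (ZMod P.p) (integralClosure ℤ ℂ ⧸ 𝔪) := ZMod.algebra _ P.p
  obtain ⟨ρ, hatt, -⟩ := h29 hg (Ideal.Quotient.mk 𝔪)
  obtain ⟨L₁, hL₁, h1⟩ := ρ.factorsThroughFiniteLevel
  obtain ⟨L₂, hL₂, h2⟩ := Fermat.Agent.S13.exists_open P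
  haveI : FiniteDimensional ℚ ↥(L₁ ⊔ L₂) := IntermediateField.finiteDimensional_sup L₁ L₂
  obtain ⟨F, iF, iNF, iGal, iAlg, iTower, hF⟩ := exists_galois_level (L₁ ⊔ L₂)
  have hℓk : ∀ ℓ : ℕ, ℓ.Prime → ℓ ≠ P.p → ((ℓ : ℕ) : integralClosure ℤ ℂ ⧸ 𝔪) ≠ 0 := by
    intro ℓ hℓ hℓp h0
    have hdvd : P.p ∣ ℓ := (CharP.cast_eq_zero_iff (integralClosure ℤ ℂ ⧸ 𝔪) P.p ℓ).mp h0
    exact hℓp ((Nat.prime_dvd_prime_iff_eq hpp hℓ).mp hdvd).symm
  refine ⟨integralClosure ℤ ℂ ⧸ 𝔪, inferInstance, inferInstance, ρ.V, inferInstance,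
    inferInstance, ρ.ρ, Ideal.Quotient.mk 𝔪, F, iF, iNF, iGal, iAlg, iTower, ?_, ρ.finrank_eq,
    ?_, ?_, ?_⟩
  · intro x hx
    exact Ideal.Quotient.eq_zero_iff_mem.mpr hx
  · intro σ hσ
    refine Subgroup.mem_inf.mpr ⟨?_, ?_⟩
    · rw [MonoidHom.mem_ker]
      refine LinearMap.ext fun x => ?_
      rw [galoisRepModuleEnd_apply, Module.End.one_apply]
      refine h2 σ ?_ x
      rw [IntermediateField.mem_fixingSubgroup_iff]
      exact fun y hy => hF σ hσ y (le_sup_right (a := L₁) hy)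
    · rw [MonoidHom.mem_ker]
      exact h1 σ fun y hy => hF σ hσ y (le_sup_left (b := L₂) hy)
  · intro ℓ hℓ hℓM hℓp A hA τ hτ
    obtain ⟨a, ha, hchar⟩ := hatt ℓ hℓ hℓM (hℓk ℓ hℓ hℓp) A hA τ hτ
    exact ⟨a, ha, (trace_det_of_charpoly ρ.finrank_eq _ _ _ hchar).1⟩
  · intro ℓ hℓ hℓM hℓp A hA τ hτ
    obtain ⟨a, ha, hchar⟩ := hatt ℓ hℓ hℓM (hℓk ℓ hℓ hℓp) A hA τ hτ
    exact (trace_det_of_charpoly ρ.finrank_eq _ _ _ hchar).2

/-- **`S42` from `S29`**: the attachment property for the Frey prime at every level. -/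
theorem s42_of_s29 (h29 : S29Stmt) (P : FreyPackage) :
    ∀ M : ℕ, 0 < M → P.EigenformResidualAttachmentAt M :=
  fun M _ => s42_at_of_s29_at P M fun hg _ _ _ φ => h29 hg P.pp φ

end Fermat.Agent.P5.G9
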