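import Mathlib
import Fermat.Agent.P5.G9.Top
import Fermat.Agent.P5.G9.EigenHom
import Fermat.Agent.Lib.CompleteDVRPrime

/-!
# P5 block [G9]: `S29` from `S30`, unconditional form

`s29_of_s30_main : S30Stmt → S29Stmt`, the two leaves of the block being
`Fermat.Agent.Lib.CompleteDVRPrime.exists_complete_dvr_numberField` (G9-a) and
`Fermat.Agent.P5.G9.eigenStmt` (G9-b).
-/

set_option autoImplicit false

namespace Fermat.Agent.P5.G9

/-- Leaf (G9-a), in the shape of `CompletionStmt`. -/
theorem completionStmt : CompletionStmt := by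
  intro K _ _ v
  haveI : v.asIdeal.IsMaximal := v.isMaximal
  obtain ⟨O, i1, i2, i3, i4, i5, i6, ι, -, h1, h2⟩ :=
    Fermat.Agent.Lib.CompleteDVRPrime.exists_complete_dvr_numberField K v.asIdeal v.ne_bot
  exact ⟨O, i1, i2, i3, i4, i5, i6, ι, h1, h2⟩

/-- **`S29` from `S30`.** -/
theorem s29_of_s30_main : S30Stmt → S29Stmt :=
  s29_of_s30 completionStmt eigenStmt

end Fermat.Agent.P5.G9
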